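import Mathlib

/-!
# S56 / BASE-BIG / BASE-C, leaf P2 (helper714), part 1: linear algebra

Mathlib-only lemmas on characteristic polynomials over a field:

* `charpoly_eq_of_comm`   : intertwined endomorphisms (by a linear equivalence);
* `charpoly_dualMap`      : `charpoly (f.dualMap) = charpoly f`;
* `charpoly_pi`           : `charpoly (∏ᵢ fᵢ) = ∏ᵢ charpoly fᵢ` on a finite product of spaces;
* `charpoly_of_exact`     : multiplicativity in short exact sequences.
-/

set_option autoImplicit false

noncomputable section

namespace Fermat.Agent.S56.Euler.H714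

open Polynomial Module

section Field

variable {k : Type} [Field k]

/-- Endomorphisms intertwined by a linear equivalence have the same characteristic polynomial. -/
theorem charpoly_eq_of_comm {V W : Type} [AddCommGroup V] [Module k V] [Module.Finite k V]
    [AddCommGroup W] [Module k W] [Module.Finite k W]
    (e : V ≃ₗ[k] W) (f : V →ₗ[k] V) (g : W →ₗ[k] W) (h : ∀ x, e (f x) = g (e x)) :
    f.charpoly = g.charpoly := by
  have hg : g = e.conj f := by
    apply LinearMap.ext
    intro y
    rw [LinearEquiv.conj_apply, LinearMap.comp_apply, LinearMap.comp_apply,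
      LinearEquiv.coe_coe, LinearEquiv.coe_coe, h, LinearEquiv.apply_symm_apply]
  rw [hg, LinearEquiv.charpoly_conj]

/-- The transpose has the same characteristic polynomial. -/
theorem charpoly_dualMap {V : Type} [AddCommGroup V] [Module k V] [Module.Finite k V]
    (f : V →ₗ[k] V) : f.dualMap.charpoly = f.charpoly := by
  classical
  let b := Module.Free.chooseBasis k V
  rw [← LinearMap.charpoly_toMatrix f.dualMap b.dualBasis, ← LinearMap.charpoly_toMatrix f b]
  have h : LinearMap.toMatrix b.dualBasis b.dualBasis f.dualMap =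
      (LinearMap.toMatrix b b f).transpose := by
    ext i j
    simp [LinearMap.toMatrix_apply, LinearMap.dualMap_apply]
  rw [h, Matrix.charpoly_transpose]

/-- The characteristic polynomial of an endomorphism of a zero space is `1`. -/
theorem charpoly_of_subsingleton {V : Type} [AddCommGroup V] [Module k V] [Subsingleton V]
    (f : V →ₗ[k] V) : f.charpoly = 1 := by
  have hmon := LinearMap.charpoly_monic f
  have hdeg : f.charpoly.natDegree = 0 := by
    rw [LinearMap.charpoly_natDegree, Module.finrank_zero_of_subsingleton]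
  exact (Polynomial.eq_one_of_monic_natDegree_zero hmon hdeg)

/-- Multiplicativity of the characteristic polynomial in a short exact sequence. -/
theorem charpoly_of_exact {V' V V'' : Type} [AddCommGroup V'] [Module k V']
    [AddCommGroup V] [Module k V] [AddCommGroup V''] [Module k V'']
    [Module.Finite k V'] [Module.Finite k V] [Module.Finite k V'']
    (i : V' →ₗ[k] V) (q : V →ₗ[k] V'')
    (hi : Function.Injective i) (hq : Function.Surjective q)
    (hex : LinearMap.range i = LinearMap.ker q)
    (f' : V' →ₗ[k] V') (f : V →ₗ[k] V) (f'' : V'' →ₗ[k] V'')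
    (h1 : ∀ x, i (f' x) = f (i x)) (h2 : ∀ x, q (f x) = f'' (q x)) :
    f.charpoly = f'.charpoly * f''.charpoly := by
  classical
  -- a section `s` of `q` and the induced splitting `V ≃ V' × V''`
  obtain ⟨s, hs⟩ := q.exists_rightInverse_of_surjective (LinearMap.range_eq_top.2 hq)
  have hqs : ∀ y, q (s y) = y := fun y => LinearMap.congr_fun hs y
  have hqi : ∀ x, q (i x) = 0 := by
    intro x
    have : i x ∈ LinearMap.ker q := by rw [← hex]; exact LinearMap.mem_range_self i x
    exact this
  -- the equivalence
  let Φ : (V' × V'') →ₗ[k] V := i.coprod s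
  have hΦinj : Function.Injective Φ := by
    rw [← LinearMap.ker_eq_bot, LinearMap.ker_eq_bot']
    rintro ⟨x, y⟩ hxy
    have hxy' : i x + s y = 0 := by simpa [Φ] using hxy
    have hy : y = 0 := by
      have := congrArg q hxy'
      rw [map_add, hqi, hqs, zero_add, map_zero] at this
      exact this
    subst hy
    rw [map_zero, add_zero] at hxy'
    have hx : x = 0 := hi (by rw [hxy', map_zero])
    subst hx
    rfl
  have hΦsurj : Function.Surjective Φ := by
    intro v
    have hmem : v - s (q v) ∈ LinearMap.range i := by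
      rw [hex, LinearMap.mem_ker, map_sub, hqs, sub_self]
    obtain ⟨x, hx⟩ := hmem
    refine ⟨(x, q v), ?_⟩
    simp [Φ, hx]
  let e : (V' × V'') ≃ₗ[k] V := LinearEquiv.ofBijective Φ ⟨hΦinj, hΦsurj⟩
  have he : ∀ z, e z = i z.1 + s z.2 := fun z => by simp [e, Φ]
  -- the off-diagonal block
  have hmem : ∀ y, f (s y) - s (f'' y) ∈ LinearMap.range i := by
    intro y
    rw [hex, LinearMap.mem_ker, map_sub, h2, hqs, hqs, sub_self]
  let c : V'' →ₗ[k] V' := (LinearEquiv.ofInjective i hi).symm.toLinearMap ∘ₗ
    LinearMap.codRestrict (LinearMap.range i) (f ∘ₗ s - s ∘ₗ f'') (fun y => hmem y)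
  have hc : ∀ y, i (c y) = f (s y) - s (f'' y) := by
    intro y
    have := (LinearEquiv.ofInjective i hi).apply_symm_apply
      (LinearMap.codRestrict (LinearMap.range i) (f ∘ₗ s - s ∘ₗ f'') (fun y => hmem y) y)
    have h3 := congrArg Subtype.val this
    simpa [c] using h3
  -- the block triangular form
  let T : (V' × V'') →ₗ[k] (V' × V'') :=
    (f'.coprod c).prod (f'' ∘ₗ LinearMap.snd k V' V'')
  have hT : ∀ z, e (T z) = f (e z) := by
    rintro ⟨x, y⟩
    have hTz : T (x, y) = (f' x + c y, f'' y) := rfl
    rw [he, he, hTz]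
    show i (f' x + c y) + s (f'' y) = f (i x + s y)
    rw [map_add, map_add, h1, hc]
    abel
  rw [← charpoly_eq_of_comm e T f hT]
  -- charpoly of the block triangular map
  let b₁ := Module.Free.chooseBasis k V'
  let b₂ := Module.Free.chooseBasis k V''
  rw [← LinearMap.charpoly_toMatrix f' b₁, ← LinearMap.charpoly_toMatrix f'' b₂,
    ← LinearMap.charpoly_toMatrix T (b₁.prod b₂)]
  have h : LinearMap.toMatrix (b₁.prod b₂) (b₁.prod b₂) T =
      Matrix.fromBlocks (LinearMap.toMatrix b₁ b₁ f') (LinearMap.toMatrix b₂ b₁ c) 0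
        (LinearMap.toMatrix b₂ b₂ f'') := by
    ext a b
    rcases a with a | a <;> rcases b with b | b <;>
      simp [LinearMap.toMatrix_apply, T]
  rw [h, Matrix.charpoly_fromBlocks_zero₂₁]

end Field

section Pi

variable {k : Type} [Field k]

/-- The characteristic polynomial of a product of endomorphisms, auxiliary form for the
induction on the index type. -/
theorem charpoly_pi_aux (ι : Type) [Fintype ι] :
    ∀ (M : ι → Type) [∀ i, AddCommGroup (M i)] [∀ i, Module k (M i)]
      [∀ i, Module.Finite k (M i)] (f : ∀ i, M i →ₗ[k] M i),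
      (LinearMap.pi fun i => f i ∘ₗ LinearMap.proj i : (∀ i, M i) →ₗ[k] (∀ i, M i)).charpoly =
        ∏ i, (f i).charpoly := by
  classical
  refine Fintype.induction_empty_option
    (P := fun (α : Type) [Fintype α] => ∀ (M : α → Type) [∀ i, AddCommGroup (M i)]
      [∀ i, Module k (M i)] [∀ i, Module.Finite k (M i)] (f : ∀ i, M i →ₗ[k] M i),
      (LinearMap.pi fun i => f i ∘ₗ LinearMap.proj i : (∀ i, M i) →ₗ[k] (∀ i, M i)).charpoly =
        ∏ i, (f i).charpoly) ?_ ?_ ?_ ι
  · -- invariance under equivalences
    intro α β _ e hα M _ _ _ f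
    let _ : Fintype α := Fintype.ofEquiv β e.symm
    have h := hα (fun a => M (e a)) (fun a => f (e a))
    have hprod : ∏ a, (f (e a)).charpoly = ∏ b, (f b).charpoly :=
      Fintype.prod_equiv e _ _ (fun _ => rfl)
    rw [← hprod, ← h]
    symm
    refine charpoly_eq_of_comm (LinearEquiv.piCongrLeft k M e) _ _ ?_
    intro x
    funext b
    obtain ⟨a, rfl⟩ := e.surjective b
    show (Equiv.piCongrLeft M e) _ (e a) = f (e a) ((Equiv.piCongrLeft M e) x (e a))
    rw [Equiv.piCongrLeft_apply_apply, Equiv.piCongrLeft_apply_apply]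
    rfl
  · -- the empty product
    intro M _ _ _ f
    rw [Finset.univ_eq_empty, Finset.prod_empty]
    exact charpoly_of_subsingleton _
  · -- adding one factor
    intro α _ hα M _ _ _ f
    rw [Fintype.prod_option, ← hα (fun a => M (some a)) (fun a => f (some a)),
      ← LinearMap.charpoly_prodMap]
    refine charpoly_eq_of_comm (LinearEquiv.piOptionEquivProd k) _ _ ?_
    intro x
    rfl

/-- **The characteristic polynomial of a product of endomorphisms.** -/
theorem charpoly_pi {ι : Type} [Fintype ι] (M : ι → Type) [∀ i, AddCommGroup (M i)]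
    [∀ i, Module k (M i)] [∀ i, Module.Finite k (M i)] (f : ∀ i, M i →ₗ[k] M i) :
    (LinearMap.pi fun i => f i ∘ₗ LinearMap.proj i : (∀ i, M i) →ₗ[k] (∀ i, M i)).charpoly =
      ∏ i, (f i).charpoly :=
  charpoly_pi_aux ι M f

end Pi

end Fermat.Agent.S56.Euler.H714

end
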