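import Fermat.Agent.S55.PT.SpecT
import Fermat.Agent.S56.Euler.Big.H714.CharpolyLA

/-!
# S56 / BASE-BIG / BASE-C, leaf P2 (helper714), part 2: the equivariant `H²` formula

Abstract setting of `S55/PT/Top.lean`: a global group `G` with levels `L`, finitely many local
groups `Gv v` with levels `Lv v` and level-compatible maps `r v`, a character `χ`, invariant maps
`inv v : H²(G_v, k(χ)) → k` satisfying reciprocity.

For an equivariant endomorphism `T` of a finite-dimensional `N`, the top pairings are natural: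
`topPair (T_* x) = (Tᵗ)ᵗ (topPair x)` where `Tᵗ = T.dualMap` is the transpose of `T` on
`charHom χ N = Hom_G(N, k(χ)) = H⁰(N′)`, `N′ = N.dualTwist χ`.  Hence, if `Ш²(N) = 0` and the
local and global top pairings are bijective (S55: `TopLocSpec`, `TopGlobSpec`), the tail of the
Poitou–Tate sequence

    0 → H²(G, N) → ∏_v H²(G_v, N) → H⁰(G, N′)^∨ → 0

is an exact sequence of `k[T]`-modules and

    `charpoly (T | H²(N)) * charpoly (Tᵗ | H⁰(G, N′)) = ∏_v charpoly (Tᵗ | H⁰(G_v, N′))`.

Main statement: `charpoly_pushH2_mul` (the transposes are written `pushH0 … T.dualMap …`, the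
shape of `H419.charpoly_H0_loc_tdual` / `H419.charpoly_H0_glob_tdual`).
-/

set_option autoImplicit false

noncomputable section

namespace Fermat.Agent.S56.Euler.H714

open Fermat.Agent.S55.PT groupCohomology Polynomial Module

variable {k : Type} [Field k] {G : Type} [Group G]

/-! ### the transpose on `charHom` -/

section CharHomMap

variable (χ : G →* kˣ) {N : Rep.{0, 0, 0} k G} (T : N →ₗ[k] N) (hT : IsEquivariant T)

include hT in
lemma dualMap_mem_charHom {f : Module.Dual k N} (hf : f ∈ charHom χ N) :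
    T.dualMap f ∈ charHom χ N := by
  intro g n
  have hT' : ∀ (g : G) (a : N), T (N.ρ g a) = N.ρ g (T a) := hT
  rw [LinearMap.dualMap_apply, LinearMap.dualMap_apply, hT' g n]
  exact hf g (T n)

/-- The transpose `f ↦ f ∘ T` of an equivariant endomorphism on `charHom χ N`. -/
def charHomMap : ↥(charHom χ N) →ₗ[k] ↥(charHom χ N) :=
  T.dualMap.restrict (p := charHom χ N) (q := charHom χ N)
    (fun _ hf => dualMap_mem_charHom χ T hT hf)

@[simp] lemma coe_charHomMap (f : ↥(charHom χ N)) :
    ((charHomMap χ T hT f : ↥(charHom χ N)) : Module.Dual k N) =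
      (f : Module.Dual k N) ∘ₗ T := rfl

end CharHomMap

/-! ### `H⁰` of the twisted dual and `charHom` -/

section H0CharHom

variable (χ : G →* kˣ) (N : Rep.{0, 0, 0} k G)

/-- Pointwise form of `H0_dualTwist_eq`: `g` fixes `f` in `N′` iff `f (g n) = χ(g) f(n)`. -/
lemma dualTwist_fixed_iff (g : G) (f : Module.Dual k N) :
    (N.dualTwist χ).ρ g f = f ↔ ∀ n : N, f (N.ρ g n) = (χ g : k) * f n := by
  have key : ∀ n : N, ((N.dualTwist χ).ρ g f) n = (χ g : k) * f (N.ρ g⁻¹ n) := by
    intro n
    rw [Rep.dualTwist_ρ_apply, LinearMap.smul_apply, LinearMap.comp_apply, smul_eq_mul]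
  have hinv : ∀ n : N, N.ρ g⁻¹ (N.ρ g n) = n := by
    intro n
    rw [← Module.End.mul_apply, ← map_mul, inv_mul_cancel, map_one, Module.End.one_apply]
  have hinv' : ∀ n : N, N.ρ g (N.ρ g⁻¹ n) = n := by
    intro n
    rw [← Module.End.mul_apply, ← map_mul, mul_inv_cancel, map_one, Module.End.one_apply]
  constructor
  · intro h n
    have h2 : ((N.dualTwist χ).ρ g f) (N.ρ g n) = f (N.ρ g n) := by rw [h]
    rw [key, hinv] at h2
    exact h2.symm
  · intro h
    apply LinearMap.ext
    intro n
    rw [key]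
    have h2 := h (N.ρ g⁻¹ n)
    rw [hinv'] at h2
    exact h2.symm

/-- `H⁰(G', N′|_{G'}) = charHom (χ ∘ s) (N|_{G'})` as sets of functionals. -/
lemma mem_H0_res_dualTwist_iff {G' : Type} [Group G'] (s : G' →* G) (f : Module.Dual k N) :
    f ∈ (LevelSys.H0 (Rep.res s (N.dualTwist χ)) : Submodule k (Module.Dual k N)) ↔
      f ∈ charHom (χ.comp s) (Rep.res s N) := by
  constructor
  · intro h g n
    have h1 : (N.dualTwist χ).ρ (s g) f = f := h g
    exact (dualTwist_fixed_iff χ N (s g) f).1 h1 n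
  · intro h g
    show (N.dualTwist χ).ρ (s g) f = f
    exact (dualTwist_fixed_iff χ N (s g) f).2 (fun n => h g n)

/-- `H⁰(G, N′) = charHom χ N` as sets of functionals. -/
lemma mem_H0_dualTwist_iff (f : Module.Dual k N) :
    f ∈ (LevelSys.H0 (N.dualTwist χ) : Submodule k (Module.Dual k N)) ↔ f ∈ charHom χ N := by
  constructor
  · intro h g n
    have h1 : (N.dualTwist χ).ρ g f = f := h g
    exact (dualTwist_fixed_iff χ N g f).1 h1 n
  · intro h g
    show (N.dualTwist χ).ρ g f = f
    exact (dualTwist_fixed_iff χ N g f).2 (fun n => h g n)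

/-- The identification `H⁰(G', N′|_{G'}) → charHom (χ ∘ s) (N|_{G'})`. -/
def h0ResToCharHom {G' : Type} [Group G'] (s : G' →* G) :
    ↥(LevelSys.H0 (Rep.res s (N.dualTwist χ))) →ₗ[k] ↥(charHom (χ.comp s) (Rep.res s N)) where
  toFun a := ⟨a.1, (mem_H0_res_dualTwist_iff χ N s a.1).1 a.2⟩
  map_add' _ _ := rfl
  map_smul' _ _ := rfl

lemma h0ResToCharHom_bijective {G' : Type} [Group G'] (s : G' →* G) :
    Function.Bijective (h0ResToCharHom χ N s) := by
  constructor
  · intro a b hab
    have h := congrArg Subtype.val hab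
    exact Subtype.ext h
  · intro f
    exact ⟨⟨f.1, (mem_H0_res_dualTwist_iff χ N s f.1).2 f.2⟩, rfl⟩

/-- The identification `H⁰(G, N′) → charHom χ N`. -/
def h0ToCharHom : ↥(LevelSys.H0 (N.dualTwist χ)) →ₗ[k] ↥(charHom χ N) where
  toFun a := ⟨a.1, (mem_H0_dualTwist_iff χ N a.1).1 a.2⟩
  map_add' _ _ := rfl
  map_smul' _ _ := rfl

lemma h0ToCharHom_bijective : Function.Bijective (h0ToCharHom χ N) := by
  constructor
  · intro a b hab
    have h := congrArg Subtype.val hab
    exact Subtype.ext h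
  · intro f
    exact ⟨⟨f.1, (mem_H0_dualTwist_iff χ N f.1).2 f.2⟩, rfl⟩

end H0CharHom

/-- The transpose of a bijective linear map is bijective. -/
lemma dualMap_bijective_h714 {V W : Type} [AddCommMonoid V] [Module k V] [AddCommMonoid W]
    [Module k W] (f : V →ₗ[k] W) (hf : Function.Bijective f) :
    Function.Bijective f.dualMap :=
  (LinearEquiv.ofBijective f hf).dualMap.bijective

/-! ### naturality of the top pairings -/

section Natural

variable (L : LevelSys G) (χ : G →* kˣ) (inv : L.H2 (ofChar χ) →ₗ[k] k)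
  {N : Rep.{0, 0, 0} k G} (T : N →ₗ[k] N) (hT : IsEquivariant T)

lemma pushChar_pushH2 (f : ↥(charHom χ N)) (x : L.H2 N) :
    pushChar L χ N f (pushH2 T hT L x) = pushChar L χ N (charHomMap χ T hT f) x := by
  unfold pushChar
  exact (pushH2_comp (A := N) (B := N) (C := ofChar χ) L hT
    (charHom_equivariant χ N f.2)
    (charHom_equivariant χ N (charHomMap χ T hT f).2) x).symm

lemma topPair_pushH2 (x : L.H2 N) :
    topPair L χ inv N (pushH2 T hT L x) =
      (charHomMap χ T hT).dualMap (topPair L χ inv N x) := by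
  apply LinearMap.ext
  intro f
  rw [topPair_apply, LinearMap.dualMap_apply, topPair_apply, pushChar_pushH2]

end Natural

section Glob

variable {ι : Type} [Fintype ι] [DecidableEq ι] {Gv : ι → Type} [∀ v, Group (Gv v)]
variable {L : LevelSys G} {Lv : ∀ v, LevelSys (Gv v)} {r : ∀ v, Gv v →* G}
variable (hr : ∀ v, IsLevelCompatible (r v) L (Lv v))
variable (χ : G →* kˣ) (inv : ∀ v, (Lv v).H2 (ofChar (χ.comp (r v))) →ₗ[k] k)
variable {N : Rep.{0, 0, 0} k G} (T : N →ₗ[k] N) (hT : IsEquivariant T)

/-- The local transpose, on `charHom (χ ∘ r v) (N|_{G_v})`. -/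
abbrev charHomMapLoc (v : ι) :
    ↥(charHom (χ.comp (r v)) (Rep.res (r v) N)) →ₗ[k]
      ↥(charHom (χ.comp (r v)) (Rep.res (r v) N)) :=
  charHomMap (χ.comp (r v)) (N := Rep.res (r v) N) T (hT.res (r v))

omit [Fintype ι] [DecidableEq ι] in
lemma charHomRes_charHomMap (v : ι) (f : ↥(charHom χ N)) :
    charHomRes χ N (r v) (charHomMap χ T hT f) =
      charHomMapLoc (r := r) χ T hT v (charHomRes χ N (r v) f) := rfl

lemma topGlobFun_pushLoc2 (x : (v : ι) → (Lv v).H2 (Rep.res (r v) N)) :
    topGlobFun χ inv N (pushLoc2 (Lv := Lv) (r := r) T hT x) =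
      (charHomMap χ T hT).dualMap (topGlobFun χ inv N x) := by
  apply LinearMap.ext
  intro f
  rw [LinearMap.dualMap_apply, topGlobFun_apply, topGlobFun_apply]
  refine Finset.sum_congr rfl fun v _ => ?_
  rw [pushLoc2_apply, charHomRes_charHomMap]
  congr 1
  exact pushChar_pushH2 (Lv v) (χ.comp (r v)) (N := Rep.res (r v) N) T (hT.res (r v))
    (charHomRes χ N (r v) f) (x v)

variable {χ inv}

lemma topT3_pushT3 (hrec : IsRecip hr χ inv) (y : T3 hr N) :
    topT3 hr N hrec (pushT3 hr T hT y) = (charHomMap χ T hT).dualMap (topT3 hr N hrec y) := by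
  obtain ⟨x, rfl⟩ := T3π_surjective hr N y
  rw [pushT3_mk, topT3_mk, topT3_mk]
  exact topGlobFun_pushLoc2 χ inv T hT x

/-! ### the equivariant `H²` formula -/

variable [Module.Finite k N]

/-- **The equivariant `H²` formula.**  If `Ш²(N) = 0` and the local and global top pairings of
`N` are bijective, then for every equivariant endomorphism `T` of `N`:
`charpoly (T | H²(G, N)) * charpoly (Tᵗ | H⁰(G, N′)) = ∏_v charpoly (Tᵗ | H⁰(G_v, N′))`. -/
theorem charpoly_pushH2_mul [Module.Finite k (L.H2 N)] (hrec : IsRecip hr χ inv)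
    (hsha : Sha2 hr N = ⊥)
    (hloc : ∀ v, Function.Bijective
      (topPair (Lv v) (χ.comp (r v)) (inv v) (Rep.res (r v) N)))
    (hglob : Function.Bijective (topT3 hr N hrec)) :
    (pushH2 T hT L).charpoly *
        (pushH0 (A := N.dualTwist χ) (B := N.dualTwist χ) T.dualMap
          (dualMap_equivariant χ T hT)).charpoly =
      ∏ v, (pushH0 (A := Rep.res (r v) (N.dualTwist χ)) (B := Rep.res (r v) (N.dualTwist χ))
        T.dualMap ((dualMap_equivariant χ T hT).res (r v))).charpoly := by
  classical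
  -- the top maps with values in the duals of `H⁰(N′)`
  let θ : ∀ v, (Lv v).H2 (Rep.res (r v) N) →ₗ[k]
      Module.Dual k ↥(LevelSys.H0 (Rep.res (r v) (N.dualTwist χ))) := fun v =>
    (h0ResToCharHom χ N (r v)).dualMap ∘ₗ
      topPair (Lv v) (χ.comp (r v)) (inv v) (Rep.res (r v) N)
  have hθ : ∀ v, Function.Bijective (θ v) := fun v => by
    have h1 := dualMap_bijective_h714 (h0ResToCharHom χ N (r v))
      (h0ResToCharHom_bijective χ N (r v))
    exact h1.comp (hloc v)
  let Θ : T3 hr N →ₗ[k] Module.Dual k ↥(LevelSys.H0 (N.dualTwist χ)) :=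
    (h0ToCharHom χ N).dualMap ∘ₗ topT3 hr N hrec
  have hΘ : Function.Bijective Θ := by
    have h1 := dualMap_bijective_h714 (h0ToCharHom χ N) (h0ToCharHom_bijective χ N)
    exact h1.comp hglob
  let eloc : ∀ v, (Lv v).H2 (Rep.res (r v) N) ≃ₗ[k]
      Module.Dual k ↥(LevelSys.H0 (Rep.res (r v) (N.dualTwist χ))) := fun v =>
    LinearEquiv.ofBijective (θ v) (hθ v)
  let eglob : T3 hr N ≃ₗ[k] Module.Dual k ↥(LevelSys.H0 (N.dualTwist χ)) :=
    LinearEquiv.ofBijective Θ hΘ
  -- finiteness
  have hfinv : ∀ v, Module.Finite k ((Lv v).H2 (Rep.res (r v) N)) := fun v =>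
    Module.Finite.equiv (eloc v).symm
  have hinj : Function.Injective (loc2 hr N) := by
    rw [← LinearMap.ker_eq_bot]
    exact hsha
  have hfin3 : Module.Finite k (T3 hr N) :=
    Module.Finite.of_surjective (T3π hr N) (T3π_surjective hr N)
  -- the exact sequence
  have hex := charpoly_of_exact (loc2 hr N) (T3π hr N) hinj (T3π_surjective hr N)
    (ker_T3π hr N).symm (pushH2 T hT L) (pushLoc2 (Lv := Lv) (r := r) T hT)
    (pushT3 hr T hT) (fun x => loc2_pushH2 hr T hT x) (fun x => (pushT3_mk hr T hT x).symm)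
  -- the global term
  have h3 : (pushT3 hr T hT).charpoly =
      (pushH0 (A := N.dualTwist χ) (B := N.dualTwist χ) T.dualMap
        (dualMap_equivariant χ T hT)).charpoly := by
    rw [← charpoly_dualMap (pushH0 (A := N.dualTwist χ) (B := N.dualTwist χ) T.dualMap
      (dualMap_equivariant χ T hT))]
    refine charpoly_eq_of_comm eglob _ _ (fun y => ?_)
    show (h0ToCharHom χ N).dualMap (topT3 hr N hrec (pushT3 hr T hT y)) = _
    rw [topT3_pushT3]
    rfl
  -- the local terms
  have hv : ∀ v, (pushH2 (A := Rep.res (r v) N) (B := Rep.res (r v) N) T (hT.res (r v))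
      (Lv v)).charpoly =
      (pushH0 (A := Rep.res (r v) (N.dualTwist χ)) (B := Rep.res (r v) (N.dualTwist χ))
        T.dualMap ((dualMap_equivariant χ T hT).res (r v))).charpoly := by
    intro v
    rw [← charpoly_dualMap (pushH0 (A := Rep.res (r v) (N.dualTwist χ))
      (B := Rep.res (r v) (N.dualTwist χ)) T.dualMap ((dualMap_equivariant χ T hT).res (r v)))]
    refine charpoly_eq_of_comm (eloc v) _ _ (fun x => ?_)
    show (h0ResToCharHom χ N (r v)).dualMap (topPair (Lv v) (χ.comp (r v)) (inv v)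
      (Rep.res (r v) N) (pushH2 (A := Rep.res (r v) N) (B := Rep.res (r v) N) T (hT.res (r v))
        (Lv v) x)) = _
    rw [topPair_pushH2]
    rfl
  have hpi : (pushLoc2 (Lv := Lv) (r := r) T hT).charpoly =
      ∏ v, (pushH2 (A := Rep.res (r v) N) (B := Rep.res (r v) N) T (hT.res (r v))
        (Lv v)).charpoly :=
    charpoly_pi (fun v => (Lv v).H2 (Rep.res (r v) N))
      (fun v => pushH2 (A := Rep.res (r v) N) (B := Rep.res (r v) N) T (hT.res (r v)) (Lv v))
  rw [← h3, ← hex, hpi]
  exact Finset.prod_congr rfl fun v _ => hv v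

end Glob

end Fermat.Agent.S56.Euler.H714

end
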