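import Fermat.Agent.S56.Euler.Big.H714.H2Abs
import Fermat.Agent.S55.PT.LesNatH113
import Fermat.Agent.S56.H419.H0Final

/-!
# S56 / BASE-BIG / BASE-C, leaf P2 (helper714), part 3: the arithmetic `H²` term

* `charpoly_pushH2_arith` : the equivariant `H²` formula over `G_ℚ` (levels `globalLevels S`),
  from the S55 by-products `TopLocSpec`, `TopGlobSpec` and `Ш²_S(N) = 0`:
  `charpoly (T | H²_S(N)) * charpoly (Tᵗ | H⁰(G_ℚ, N′)) = ∏_{v ∈ S} charpoly (Tᵗ | H⁰(G_v, N′))`.
* `charpoly_pushH2_indR` (**P2**) : for `X = Ind_U μ_p`, `U = G_F`, `R_σ` the right translation: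
  `charpoly (R_σ | H²_S(X)) * (X - 1) = permCharpoly (σ⁻¹ | primes of F over S)`.
-/

set_option autoImplicit false
set_option linter.style.haveILetI false
set_option linter.unusedSectionVars false

noncomputable section

open scoped NumberField

namespace Fermat.Agent.S56.Euler.H714

open Fermat.Agent.S55.PT Fermat.Agent.S56.H419 Fermat.Agent.S56.H614 ExtCitation
  groupCohomology Polynomial Module

variable (p : ℕ) [Fact p.Prime] (S : Finset Nat.Primes)

/-- **The equivariant `H²` formula over `G_ℚ`.** -/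
theorem charpoly_pushH2_arith (inv : InvFamily p S)
    (hrec : IsRecip (hrl S) (cycloChar p) inv) (hTL : TopLocSpec inv)
    (hTG : TopGlobSpec inv hrec) (N : Rep.{0, 0, 0} (ZMod p) GQ) [Module.Finite (ZMod p) N]
    [Module.Finite (ZMod p) ((globalLevels S).H2 N)]
    (hsm : (globalLevels S).IsUSmooth N) (hsha : Sha2 (hrl S) N = ⊥)
    (T : N →ₗ[ZMod p] N) (hT : IsEquivariant T) :
    (pushH2 T hT (globalLevels S)).charpoly *
        (pushH0 (A := tdual p N) (B := tdual p N) T.dualMap
          (dualMap_equivariant (cycloChar p) T hT)).charpoly =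
      ∏ v : ↥S, (pushH0 (A := Rep.res (rl v.1) (tdual p N)) (B := Rep.res (rl v.1) (tdual p N))
        T.dualMap ((dualMap_equivariant (cycloChar p) T hT).res (rl v.1))).charpoly :=
  charpoly_pushH2_mul (hrl S) T hT hrec hsha
    (fun v => hTL v (Rep.res (rl v.1) N) (inferInstanceAs (Module.Finite (ZMod p) N))
      (H113.isUSmooth_res (hrl S v) hsm))
    (hTG N inferInstance hsm)

/-! ### the induced module `Ind_U μ_p` -/

section Ind

variable (F : IntermediateField ℚ (AlgebraicClosure ℚ)) [NumberField F] [IsGalois ℚ F]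
  [FiniteDimensional ℚ F]

lemma mu_ρ_apply (g : GQ) (m : mu p) : (mu p).ρ g m = ((cycloChar p g : (ZMod p)ˣ) : ZMod p) • m :=
  ofChar_ρ_apply (cycloChar p) g m

lemma finrank_mu : Module.finrank (ZMod p) (mu p) = 1 :=
  Module.finrank_self (ZMod p)

/-- **P2.**  The characteristic polynomial of the right translation `R_σ` on `H²_S(Ind_U μ_p)`,
`U = G_F`: if `Ш²_S(Ind_U μ_p) = 0` then
`charpoly (R_σ | H²_S) * (X - 1) = permCharpoly (σ⁻¹ | primes of F over S)`. -/
theorem charpoly_pushH2_indR (inv : InvFamily p S)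
    (hrec : IsRecip (hrl S) (cycloChar p) inv) (hTL : TopLocSpec inv)
    (hTG : TopGlobSpec inv hrec)
    [Module.Finite (ZMod p) (indRep F.fixingSubgroup (mu p))]
    [Module.Finite (ZMod p) ((globalLevels S).H2 (indRep F.fixingSubgroup (mu p)))]
    (hsm : (globalLevels S).IsUSmooth (indRep F.fixingSubgroup (mu p)))
    (hsha : Sha2 (hrl S) (indRep F.fixingSubgroup (mu p)) = ⊥) (σ : GQ) :
    (pushH2 (A := indRep F.fixingSubgroup (mu p)) (B := indRep F.fixingSubgroup (mu p))
        (indR F.fixingSubgroup (mu p) σ) (indR_equivariant F.fixingSubgroup (mu p) σ)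
        (globalLevels S)).charpoly * (X - 1) =
      permCharpoly (ZMod p) (primePerm ℚ F (primesT S) (resF F σ⁻¹)) := by
  have hmain := charpoly_pushH2_arith p S inv hrec hTL hTG (indRep F.fixingSubgroup (mu p))
    hsm hsha (indR F.fixingSubgroup (mu p) σ) (indR_equivariant F.fixingSubgroup (mu p) σ)
  have hglob := charpoly_H0_glob_tdual F.fixingSubgroup (mu p) (cycloChar p)
    (mu_ρ_apply p) (finrank_mu p) σ⁻¹
  have hloc := charpoly_H0_loc_tdual F (mu p) (cycloChar p) (mu_ρ_apply p) (finrank_mu p) S σ⁻¹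
  rw [← hloc, ← Finset.prod_coe_sort S, ← hglob]
  exact hmain

end Ind

end Fermat.Agent.S56.Euler.H714

end
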